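import Fermat.Agent.S23.Theta

/-!
# Project ES, WP-E-prim (helper20): the primitive element `j(N z)`

* `jfun z = E₄ z ^ 3 / Δ z` (Klein's `j`, unnormalised), `jfun_smul` (`SL(2,ℤ)`-invariance),
  `tendsto_jfun_mul_q` (`j · q → 1` at `i∞`), `mdifferentiable_jfun`.
* `jN N z = jfun (N z)`, `jN_smul_of_mem_Gamma0` (`Γ₀(N)`-invariance), `mdifferentiable_jN`,
* `mem_Gamma0_of_jN_smul_eq`: `γ ∈ SL(2,ℤ)` with `jN ∘ γ = jN` lies in `Γ₀(N)`;
  `mul_inv_mem_Gamma0_of_jN_eq`: `jN ∘ g₁ = jN ∘ g₂ → g₁ * g₂⁻¹ ∈ Γ₀(N)`.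
* `isBoundedAtImInfty_discriminant_pow_mul_jN`: `Δ ^ N * (jN ∘ g)` is bounded at `i∞` for all
  `g ∈ SL(2,ℤ)`.
-/

set_option autoImplicit false

open UpperHalfPlane hiding I
open Real Complex CongruenceSubgroup ModularForm Filter
open scoped Manifold MatrixGroups ModularForm Topology Pointwise

namespace Fermat.Agent.S21.EPrim

noncomputable section

open Fermat.Agent.S23.H20 (alpha coe_alpha_smul tendsto_E4 alpha_mul_eq conjSL)

/-- Klein's `j`-function (unnormalised): `E₄³ / Δ`. -/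
def jfun (z : ℍ) : ℂ := E₄ z ^ 3 / ModularForm.discriminant z

theorem jfun_smul (g : SL(2, ℤ)) (z : ℍ) :
    jfun ((Matrix.SpecialLinearGroup.mapGL ℝ g : GL (Fin 2) ℝ) • z) = jfun z := by
  have hg : (Matrix.SpecialLinearGroup.mapGL ℝ g : GL (Fin 2) ℝ) ∈ 𝒮ℒ := ⟨g, rfl⟩
  have h4 := SlashInvariantForm.slash_action_eqn'' E₄ hg z
  have h12 := SlashInvariantForm.slash_action_eqn'' CuspForm.discriminant hg z
  have hden : denom (Matrix.SpecialLinearGroup.mapGL ℝ g : GL (Fin 2) ℝ) z ≠ 0 :=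
    denom_ne_zero _ _
  have hΔ : ModularForm.discriminant z ≠ 0 := ModularForm.discriminant_ne_zero z
  simp only [CuspForm.coe_discriminant] at h12
  unfold jfun
  rw [h4, h12]
  field_simp

theorem tendsto_jfun_mul_q :
    Tendsto (fun z : ℍ => jfun z * Function.Periodic.qParam 1 z) atImInfty (𝓝 1) := by
  have h1 : Tendsto (fun z : ℍ => E₄ z ^ 3 / ∏' n, (1 - ModularForm.eta_q n z) ^ 24)
      atImInfty (𝓝 (1 ^ 3 / 1)) :=
    (tendsto_E4.pow 3).div tendsto_atImInfty_tprod_one_sub_eta_q_pow one_ne_zero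
  rw [show (1 : ℂ) ^ 3 / 1 = 1 by norm_num] at h1
  refine h1.congr fun z => ?_
  have hΔ : ModularForm.discriminant z ≠ 0 := ModularForm.discriminant_ne_zero z
  unfold jfun
  rw [discriminant_eq_q_prod] at hΔ ⊢
  have hq : Function.Periodic.qParam 1 (z : ℂ) ≠ 0 := Function.Periodic.qParam_ne_zero _
  have hprod : (∏' n, (1 - ModularForm.eta_q n z) ^ 24) ≠ 0 := right_ne_zero_of_mul hΔ
  field_simp

/-- `j(N z)` -/
def jN (N : ℕ) (z : ℍ) : ℂ := jfun (alpha N • z)

theorem coe_upper_smul (a b d : ℤ) (ha : 0 < a) (hd : 0 < d) (had : ((a : ℝ) * (d : ℝ)) ≠ 0)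
    (z : ℍ) :
    ((ModularForm.upperTriangularGL a b d had • z : ℍ) : ℂ) = ((a : ℂ) * z + b) / d := by
  have hdet : 0 < (ModularForm.upperTriangularGL a b d had).det.val := by
    rw [Matrix.GeneralLinearGroup.val_det_apply, ModularForm.val_upperTriangularGL,
      Matrix.det_fin_two_of]
    simp only [mul_zero, sub_zero]
    exact_mod_cast mul_pos ha hd
  rw [UpperHalfPlane.coe_smul_of_det_pos hdet]
  simp [UpperHalfPlane.num, UpperHalfPlane.denom]

theorem im_upper_smul (a b d : ℤ) (ha : 0 < a) (hd : 0 < d) (had : ((a : ℝ) * (d : ℝ)) ≠ 0)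
    (z : ℍ) :
    (ModularForm.upperTriangularGL a b d had • z : ℍ).im = (a : ℝ) / d * z.im := by
  have h := congrArg Complex.im (coe_upper_smul a b d ha hd had z)
  rw [UpperHalfPlane.coe_im] at h
  rw [h]
  have hd' : (d : ℝ) ≠ 0 := by exact_mod_cast hd.ne'
  have : ((a : ℂ) * z + b) / d = (((a : ℝ) / d : ℝ) : ℂ) * z + ((b / d : ℝ) : ℂ) := by
    push_cast
    field_simp
  rw [this]
  simp

theorem im_alpha_smul (N : ℕ) [NeZero N] (z : ℍ) : (alpha N • z : ℍ).im = (N : ℝ) * z.im := by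
  have h := congrArg Complex.im (coe_alpha_smul N z)
  rw [UpperHalfPlane.coe_im] at h
  rw [h]
  simp

theorem jN_smul_eq (N : ℕ) [NeZero N] (γ : SL(2, ℤ)) (g' : SL(2, ℤ)) (a b d : ℤ)
    (had : ((a : ℝ) * (d : ℝ)) ≠ 0)
    (h : alpha N * (Matrix.SpecialLinearGroup.mapGL ℝ γ : GL (Fin 2) ℝ) =
      (Matrix.SpecialLinearGroup.mapGL ℝ g' : GL (Fin 2) ℝ) *
        ModularForm.upperTriangularGL a b d had) (z : ℍ) :
    jN N ((Matrix.SpecialLinearGroup.mapGL ℝ γ : GL (Fin 2) ℝ) • z) =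
      jfun (ModularForm.upperTriangularGL a b d had • z) := by
  unfold jN
  rw [← mul_smul, h, mul_smul, jfun_smul]

theorem norm_q_upper (a b d : ℤ) (ha : 0 < a) (hd : 0 < d) (had : ((a : ℝ) * (d : ℝ)) ≠ 0)
    (z : ℍ) :
    ‖Function.Periodic.qParam 1 ((ModularForm.upperTriangularGL a b d had • z : ℍ) : ℂ)‖ =
      Real.exp (-2 * π * ((a : ℝ) / d * z.im)) := by
  rw [Function.Periodic.norm_qParam, UpperHalfPlane.coe_im, im_upper_smul a b d ha hd had]
  simp

theorem norm_q_alpha (N : ℕ) [NeZero N] (z : ℍ) :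
    ‖Function.Periodic.qParam 1 ((alpha N • z : ℍ) : ℂ)‖ =
      Real.exp (-2 * π * ((N : ℝ) * z.im)) := by
  rw [Function.Periodic.norm_qParam, UpperHalfPlane.coe_im, im_alpha_smul]
  simp

theorem tendsto_alpha_smul (N : ℕ) [NeZero N] :
    Tendsto (fun z : ℍ => alpha N • z) atImInfty atImInfty := by
  apply tendsto_smul_atImInfty
  show (alpha N).val 1 0 = 0
  rw [ModularForm.val_heckeDiagMatrix (NeZero.ne N)]
  simp

/-- **E-prim core**: an element of `SL(2,ℤ)` fixing `j(N z)` lies in `Γ₀(N)`. -/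
theorem mem_Gamma0_of_jN_smul_eq (N : ℕ) [NeZero N] (γ : SL(2, ℤ))
    (h : ∀ z : ℍ, jN N ((Matrix.SpecialLinearGroup.mapGL ℝ γ : GL (Fin 2) ℝ) • z) = jN N z) :
    γ ∈ Gamma0 N := by
  obtain ⟨g', a, b, d, ha, hd, had, hN, hfac⟩ :=
    Fermat.Agent.S22.heckeDiagMatrix_mul_SL N (NeZero.ne N) γ
  have hu : Tendsto (fun z : ℍ => ModularForm.upperTriangularGL a b d had • z)
      atImInfty atImInfty := tendsto_smul_atImInfty (by simp)
  -- the two normalised limits
  have h1 := (tendsto_jfun_mul_q.comp hu).norm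
  have h2 := (tendsto_jfun_mul_q.comp (tendsto_alpha_smul N)).norm
  simp only [Function.comp_def, norm_mul, norm_one] at h1 h2
  have hd1 : d = 1 := by
    by_contra hne
    have hd2 : 2 ≤ d := by omega
    have hNR : (N : ℝ) = (a : ℝ) * d := by exact_mod_cast congrArg (Int.cast : ℤ → ℝ) hN.symm
    have haR : (0 : ℝ) < a := by exact_mod_cast ha
    have hdR : (2 : ℝ) ≤ d := by exact_mod_cast hd2
    have hc : 0 < 2 * π * ((N : ℝ) - (a : ℝ) / d) := by
      have : (a : ℝ) / d < N := by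
        rw [hNR, div_lt_iff₀ (by linarith)]
        nlinarith
      have hpi := Real.pi_pos
      nlinarith
    have hJ : ∀ z : ℍ, jfun (ModularForm.upperTriangularGL a b d had • z) = jfun (alpha N • z) :=
      fun z => by
        rw [← jN_smul_eq N γ g' a b d had hfac z, h z]; rfl
    have hA : ∀ z : ℍ, ‖jfun (ModularForm.upperTriangularGL a b d had • z)‖ *
          ‖Function.Periodic.qParam 1 ((ModularForm.upperTriangularGL a b d had • z : ℍ) : ℂ)‖ =
        ‖jfun (alpha N • z)‖ * ‖Function.Periodic.qParam 1 ((alpha N • z : ℍ) : ℂ)‖ *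
          Real.exp (2 * π * ((N : ℝ) - (a : ℝ) / d) * z.im) := by
      intro z
      have he : Real.exp (-2 * π * ((a : ℝ) / d * z.im)) =
          Real.exp (-2 * π * ((N : ℝ) * z.im)) *
            Real.exp (2 * π * ((N : ℝ) - (a : ℝ) / d) * z.im) := by
        rw [← Real.exp_add]
        congr 1
        ring
      rw [hJ, norm_q_upper a b d ha hd had, norm_q_alpha, he]
      ring
    have hexp : Tendsto (fun z : ℍ => Real.exp (2 * π * ((N : ℝ) - (a : ℝ) / d) * z.im))
        atImInfty atTop :=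
      Real.tendsto_exp_atTop.comp ((tendsto_comap (f := UpperHalfPlane.im)).const_mul_atTop hc)
    have h3 := h1.div h2 one_ne_zero
    have h5 : (fun z : ℍ => ‖jfun (ModularForm.upperTriangularGL a b d had • z)‖ *
          ‖Function.Periodic.qParam 1 ((ModularForm.upperTriangularGL a b d had • z : ℍ) : ℂ)‖ /
        (‖jfun (alpha N • z)‖ * ‖Function.Periodic.qParam 1 ((alpha N • z : ℍ) : ℂ)‖))
        =ᶠ[atImInfty] fun z : ℍ => Real.exp (2 * π * ((N : ℝ) - (a : ℝ) / d) * z.im) := by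
      filter_upwards [h2.eventually_ne one_ne_zero] with z hz
      rw [hA, mul_comm, mul_div_assoc, div_self hz, mul_one]
    exact not_tendsto_nhds_of_tendsto_atTop hexp _ (h3.congr' h5)
  subst hd1
  rw [mul_one] at hN
  have h10 := congrArg (fun M : GL (Fin 2) ℝ => M.val 1 0) hfac
  simp only [Units.val_mul, ModularForm.val_upperTriangularGL,
    ModularForm.val_heckeDiagMatrix (NeZero.ne N)] at h10
  rw [Gamma0_mem]
  simp [Matrix.mul_apply, Fin.sum_univ_two] at h10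
  have h11 : (γ : Matrix (Fin 2) (Fin 2) ℤ) 1 0 = (g' : Matrix (Fin 2) (Fin 2) ℤ) 1 0 * a := by
    exact_mod_cast h10
  rw [h11, hN]
  simp

theorem mul_inv_mem_Gamma0_of_jN_eq (N : ℕ) [NeZero N] (g₁ g₂ : SL(2, ℤ))
    (h : ∀ z : ℍ, jN N ((Matrix.SpecialLinearGroup.mapGL ℝ g₁ : GL (Fin 2) ℝ) • z) =
      jN N ((Matrix.SpecialLinearGroup.mapGL ℝ g₂ : GL (Fin 2) ℝ) • z)) :
    g₁ * g₂⁻¹ ∈ Gamma0 N := by
  apply mem_Gamma0_of_jN_smul_eq
  intro z
  have := h ((Matrix.SpecialLinearGroup.mapGL ℝ g₂⁻¹ : GL (Fin 2) ℝ) • z)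
  rw [← mul_smul, ← mul_smul, ← map_mul, ← map_mul, mul_inv_cancel, map_one, one_smul] at this
  exact this

theorem jN_smul_of_mem_Gamma0 (N : ℕ) [NeZero N] (γ : SL(2, ℤ)) (hγ : γ ∈ Gamma0 N) (z : ℍ) :
    jN N ((Matrix.SpecialLinearGroup.mapGL ℝ γ : GL (Fin 2) ℝ) • z) = jN N z := by
  have hγ' : (((γ : Matrix (Fin 2) (Fin 2) ℤ) 1 0 : ℤ) : ZMod N) = 0 := Gamma0_mem.mp hγ
  obtain ⟨c', hc'⟩ := (ZMod.intCast_zmod_eq_zero_iff_dvd _ _).mp hγ'
  unfold jN
  rw [← mul_smul, alpha_mul_eq N (NeZero.ne N) γ c' hc', mul_smul, jfun_smul]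

theorem mdifferentiable_jfun : MDiff jfun := by
  have h1 : MDiff (fun z : ℍ => E₄ z ^ 3) := (ModularFormClass.holo E₄).pow 3
  have h2 : MDiff (fun z : ℍ => ModularForm.discriminant z) :=
    ModularFormClass.holo CuspForm.discriminant
  rw [UpperHalfPlane.mdifferentiable_iff] at h1 h2 ⊢
  refine (h1.div h2 ?_).congr ?_
  · intro x hx
    simp only [Function.comp_apply]
    exact ModularForm.discriminant_ne_zero _
  · intro x hx
    simp [jfun, Function.comp_apply]

theorem mdifferentiable_jN (N : ℕ) [NeZero N] : MDiff (jN N) := by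
  have h : MDiff (fun z : ℍ => alpha N • z) := by
    apply UpperHalfPlane.mdifferentiable_smul
    exact ModularForm.det_heckeDiagMatrix_pos N
  exact mdifferentiable_jfun.comp h

/-- `Δ ^ N * (j_N ∘ g)` is bounded at `i∞` for every `g ∈ SL(2,ℤ)`. -/
theorem isBoundedAtImInfty_discriminant_pow_mul_jN (N : ℕ) [NeZero N] (g : SL(2, ℤ)) :
    IsBoundedAtImInfty (fun z : ℍ => ModularForm.discriminant z ^ N *
      jN N ((Matrix.SpecialLinearGroup.mapGL ℝ g : GL (Fin 2) ℝ) • z)) := by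
  obtain ⟨g', a, b, d, ha, hd, had, hN, hfac⟩ :=
    Fermat.Agent.S22.heckeDiagMatrix_mul_SL N (NeZero.ne N) g
  have hu : Tendsto (fun z : ℍ => ModularForm.upperTriangularGL a b d had • z)
      atImInfty atImInfty := tendsto_smul_atImInfty (by simp)
  have h1 : Tendsto (fun z : ℍ => (∏' n, (1 - ModularForm.eta_q n z) ^ 24) ^ N) atImInfty
      (𝓝 (1 ^ N)) := tendsto_atImInfty_tprod_one_sub_eta_q_pow.pow N
  have h2 := tendsto_jfun_mul_q.comp hu
  have hb1 : BoundedAtFilter atImInfty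
      (fun z : ℍ => (∏' n, (1 - ModularForm.eta_q n z) ^ 24) ^ N) := h1.isBigO_one ℝ
  have hb2 : BoundedAtFilter atImInfty
      (fun z : ℍ => jfun (ModularForm.upperTriangularGL a b d had • z) *
        Function.Periodic.qParam 1 ((ModularForm.upperTriangularGL a b d had • z : ℍ) : ℂ)) :=
    h2.isBigO_one ℝ
  have hNR : (N : ℝ) = (a : ℝ) * d := by exact_mod_cast congrArg (Int.cast : ℤ → ℝ) hN.symm
  have haR : (0 : ℝ) < a := by exact_mod_cast ha
  have hdR : (1 : ℝ) ≤ d := by exact_mod_cast hd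
  have hle : (a : ℝ) / d ≤ N := by
    rw [hNR, div_le_iff₀ (by linarith)]
    nlinarith
  have hb3 : BoundedAtFilter atImInfty
      (fun z : ℍ => Function.Periodic.qParam 1 (z : ℂ) ^ N /
        Function.Periodic.qParam 1 ((ModularForm.upperTriangularGL a b d had • z : ℍ) : ℂ)) := by
    refine Asymptotics.IsBigO.of_bound 1 (Eventually.of_forall fun z => ?_)
    rw [norm_div, norm_pow, norm_q_upper a b d ha hd had, Function.Periodic.norm_qParam,
      ← Real.exp_nat_mul, ← Real.exp_sub]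
    simp only [Pi.one_apply, norm_one, mul_one, coe_im, Real.exp_le_one_iff]
    have hz := z.im_pos
    have hpi := Real.pi_pos
    have : 0 ≤ 2 * π * z.im * ((N : ℝ) - (a : ℝ) / d) :=
      mul_nonneg (by positivity) (by linarith)
    have e : (N : ℝ) * (-2 * π * z.im / 1) - -2 * π * ((a : ℝ) / d * z.im) =
        -(2 * π * z.im * ((N : ℝ) - (a : ℝ) / d)) := by ring
    rw [e]
    linarith
  have := (hb1.mul hb2).mul hb3
  refine this.congr' ?_ (by rfl)
  refine Eventually.of_forall fun z => ?_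
  simp only [Pi.mul_apply]
  rw [jN_smul_eq N g g' a b d had hfac z, discriminant_eq_q_prod]
  have hq : Function.Periodic.qParam 1
      ((ModularForm.upperTriangularGL a b d had • z : ℍ) : ℂ) ≠ 0 :=
    Function.Periodic.qParam_ne_zero _
  field_simp
  ring

end

end Fermat.Agent.S21.EPrim
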