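import Mathlib

/-!
# Project ES, work package E-prim, part 1: the analytic `j`-function

`jFun z = E₄(z)³ / Δ(z)` (so `jFun ~ 1/q` at `i∞`), its `SL(2,ℤ)`-invariance and its growth
at `i∞`.
-/

set_option autoImplicit false

open UpperHalfPlane ModularForm CongruenceSubgroup Filter Topology
open scoped MatrixGroups ModularForm

noncomputable section

namespace Fermat.Agent.S21.EPrim

/-- the analytic `j`-function, normalised as `E₄³ / Δ` -/
def jFun (z : ℍ) : ℂ := E₄ z ^ 3 / discriminant z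

lemma E4_smul (g : SL(2, ℤ)) (z : ℍ) :
    E₄ (g • z) = denom (Matrix.SpecialLinearGroup.mapGL ℝ g) z ^ (4 : ℤ) * E₄ z := by
  have h := SlashInvariantForm.slash_action_eqn'' (Γ := 𝒮ℒ) (k := 4) E₄
    (γ := Matrix.SpecialLinearGroup.mapGL ℝ g) ⟨g, rfl⟩ z
  exact h

lemma discriminant_smul (g : SL(2, ℤ)) (z : ℍ) :
    discriminant (g • z)
      = denom (Matrix.SpecialLinearGroup.mapGL ℝ g) z ^ (12 : ℤ) * discriminant z := by
  have h := SlashInvariantForm.slash_action_eqn'' (Γ := 𝒮ℒ) (k := 12) CuspForm.discriminant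
    (γ := Matrix.SpecialLinearGroup.mapGL ℝ g) ⟨g, rfl⟩ z
  exact h

theorem jFun_smul (g : SL(2, ℤ)) (z : ℍ) : jFun (g • z) = jFun z := by
  unfold jFun
  rw [E4_smul, discriminant_smul]
  have hd : denom (Matrix.SpecialLinearGroup.mapGL ℝ g) z ≠ 0 := denom_ne_zero _ z
  have hΔ : discriminant z ≠ 0 := discriminant_ne_zero z
  field_simp

lemma tendsto_E4 : Tendsto (fun z : ℍ => E₄ z) atImInfty (𝓝 1) := by
  have hper : (1 : ℝ) ∈ (𝒮ℒ).strictPeriods := by simp
  have han := ModularFormClass.analyticAt_cuspFunction_zero (h := 1) E₄ one_pos hper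
  have h0 : cuspFunction 1 (⇑E₄) 0 = 1 := by
    have h1 := EisensteinSeries.E_qExpansion_coeff_zero (k := 4) (by norm_num) (by decide)
    rw [qExpansion_coeff] at h1
    simpa using h1
  have ht := han.continuousAt.tendsto.comp (qParam_tendsto_atImInfty (h := 1) one_pos)
  rw [h0] at ht
  refine ht.congr (fun z => ?_)
  exact SlashInvariantFormClass.eq_cuspFunction (h := 1) E₄ z hper one_ne_zero

theorem tendsto_jFun_mul_q :
    Tendsto (fun z : ℍ => jFun z * Function.Periodic.qParam 1 z) atImInfty (𝓝 1) := by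
  have h1 := (tendsto_E4.pow 3).div tendsto_atImInfty_tprod_one_sub_eta_q_pow one_ne_zero
  simp only [one_pow, div_one] at h1
  refine h1.congr (fun z => ?_)
  simp only [Pi.div_apply]
  unfold jFun
  rw [discriminant_eq_q_prod]
  have hq : Function.Periodic.qParam 1 (z : ℂ) ≠ 0 := by
    simp [Function.Periodic.qParam]
  have hΔ := discriminant_ne_zero z
  rw [discriminant_eq_q_prod] at hΔ
  have hP : (∏' (n : ℕ), (1 - eta_q n ↑z) ^ 24) ≠ 0 := right_ne_zero_of_mul hΔ
  field_simp

end Fermat.Agent.S21.EPrim
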