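import Fermat.Agent.S21.EPrim.JPrim
import Fermat.Agent.S21.E.Defs

/-!
# Project ES, WP-E-prim (helper20): the initial tuple `1, f, …, f ^ (μ - 1)`, `f = j(N z)`

* `isWH_jN_pow` : `j(N z) ^ m` is weakly holomorphic of degree `≤ N * m` for `Γ₀(N)`.
* `cj_jN_ne` : distinct cosets give distinct conjugates of `j(N z)`.
* `exists_injective_cj_jN` : at some point all conjugates take distinct values.
* `h20_nonempty_tuple_Gamma0` : `Nonempty (Tuple (Gamma0 N))` (Vandermonde).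

All declarations of this file live in the namespace `Fermat.Agent.S21.EPrim.H20`.
-/

set_option autoImplicit false

open UpperHalfPlane hiding I
open Real Complex CongruenceSubgroup ModularForm Filter
open scoped Manifold MatrixGroups ModularForm Topology Pointwise

namespace Fermat.Agent.S21.EPrim.H20

noncomputable section

theorem sl_smul_eq (g : SL(2, ℤ)) (z : ℍ) :
    g • z = (Matrix.SpecialLinearGroup.mapGL ℝ g : GL (Fin 2) ℝ) • z := rfl

open Fermat.Agent.S21.E in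
theorem isWH_jN_pow (N : ℕ) [NeZero N] (m : ℕ) :
    IsWH (Gamma0 N) (N * m) (fun z => jN N z ^ m) where
  holo := (mdifferentiable_jN N).pow m
  inv γ hγ z := by
    show jN N (γ • z) ^ m = jN N z ^ m
    rw [sl_smul_eq, jN_smul_of_mem_Gamma0 N γ hγ]
  bdd g := by
    have h := isBoundedAtImInfty_discriminant_pow_mul_jN N g
    have h2 : IsBoundedAtImInfty ((fun z : ℍ => ModularForm.discriminant z ^ N *
      jN N ((Matrix.SpecialLinearGroup.mapGL ℝ g : GL (Fin 2) ℝ) • z)) ^ m) := by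
      induction m with
      | zero =>
        rw [pow_zero]
        exact Filter.const_boundedAtFilter atImInfty (1 : ℂ)
      | succ m ih => rw [pow_succ]; exact ih.mul h
    refine h2.congr' (Eventually.of_forall fun z => ?_) (by rfl)
    simp only [Pi.pow_apply, sl_smul_eq]
    rw [mul_pow, ← pow_mul]

end

end Fermat.Agent.S21.EPrim.H20

namespace Fermat.Agent.S21.EPrim.H20

noncomputable section

open Fermat.Agent.S21.E

theorem cj_jN_ne (N : ℕ) [NeZero N] {x y : SL(2, ℤ) ⧸ Gamma0 N} (hxy : x ≠ y) :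
    ∃ z : ℍ, cj (Gamma0 N) (jN N) x z ≠ cj (Gamma0 N) (jN N) y z := by
  by_contra hcon
  simp only [not_exists, not_not] at hcon
  apply hxy
  have h := mul_inv_mem_Gamma0_of_jN_eq N (Quotient.out x)⁻¹ (Quotient.out y)⁻¹
    (fun z => hcon z)
  rw [inv_inv] at h
  rw [← QuotientGroup.out_eq' x, ← QuotientGroup.out_eq' y]
  exact QuotientGroup.eq.mpr h

/-- a holomorphic function on `ℍ` which is not identically zero has isolated zeros -/
theorem eventually_ne_zero_of_mdiff {F : ℍ → ℂ} (hF : MDiff F) (hne : ∃ z, F z ≠ 0) (z₀ : ℍ) :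
    ∀ᶠ w : ℂ in 𝓝[≠] (z₀ : ℂ), F (ofComplex w) ≠ 0 := by
  rw [UpperHalfPlane.mdifferentiable_iff] at hF
  have han : AnalyticOnNhd ℂ (F ∘ ofComplex) upperHalfPlaneSet :=
    hF.analyticOnNhd isOpen_upperHalfPlaneSet
  have hpre : IsPreconnected upperHalfPlaneSet := (convex_halfSpace_im_gt 0).isPreconnected
  by_contra hcon
  rw [Filter.not_eventually] at hcon
  have hfreq : ∃ᶠ w in 𝓝[≠] (z₀ : ℂ), (F ∘ ofComplex) w = 0 :=
    hcon.mono fun w hw => by simpa using hw
  have h0 := han.eqOn_zero_of_preconnected_of_frequently_eq_zero hpre z₀.im_pos hfreq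
  obtain ⟨z, hz⟩ := hne
  apply hz
  have := h0 z.im_pos
  simpa using this

theorem mdiff_cj_jN (N : ℕ) [NeZero N] (x : SL(2, ℤ) ⧸ Gamma0 N) :
    MDiff (cj (Gamma0 N) (jN N) x) := by
  have h : MDiff (fun z : ℍ => (Quotient.out x)⁻¹ • z) := by
    have : (fun z : ℍ => (Quotient.out x)⁻¹ • z) = fun z : ℍ =>
        (Matrix.SpecialLinearGroup.mapGL ℝ (Quotient.out x)⁻¹ : GL (Fin 2) ℝ) • z := rfl
    rw [this]
    apply UpperHalfPlane.mdifferentiable_smul
    rw [Matrix.GeneralLinearGroup.val_det_apply]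
    exact Fermat.Agent.S23.H20.det_mapGL_pos _
  exact (mdifferentiable_jN N).comp h

theorem exists_injective_cj_jN (N : ℕ) [NeZero N] [Finite (SL(2, ℤ) ⧸ Gamma0 N)] :
    ∃ z : ℍ, Function.Injective (fun x => cj (Gamma0 N) (jN N) x z) := by
  have key : ∀ p : (SL(2, ℤ) ⧸ Gamma0 N) × (SL(2, ℤ) ⧸ Gamma0 N),
      ∀ᶠ w : ℂ in 𝓝[≠] ((UpperHalfPlane.I : ℍ) : ℂ), p.1 ≠ p.2 →
        cj (Gamma0 N) (jN N) p.1 (ofComplex w) ≠ cj (Gamma0 N) (jN N) p.2 (ofComplex w) := by
    intro p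
    by_cases hp : p.1 = p.2
    · exact Eventually.of_forall fun w h => absurd hp h
    · have hF : MDiff (fun z => cj (Gamma0 N) (jN N) p.1 z - cj (Gamma0 N) (jN N) p.2 z) :=
        (mdiff_cj_jN N p.1).sub (mdiff_cj_jN N p.2)
      obtain ⟨z, hz⟩ := cj_jN_ne N hp
      have := eventually_ne_zero_of_mdiff hF ⟨z, sub_ne_zero.mpr hz⟩ UpperHalfPlane.I
      exact this.mono fun w hw _ => sub_ne_zero.mp hw
  have hall := Filter.eventually_all.mpr key
  obtain ⟨w, hw⟩ := hall.exists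
  refine ⟨ofComplex w, fun x y hxy => ?_⟩
  by_contra hne
  exact hw (x, y) hne hxy

/-- the initial tuple `1, f, …, f ^ (μ - 1)` with `f = j(N z)` -/
theorem h20_nonempty_tuple_Gamma0 (N : ℕ) [NeZero N]
    [Fintype (SL(2, ℤ) ⧸ CongruenceSubgroup.Gamma0 N)]
    [DecidableEq (SL(2, ℤ) ⧸ CongruenceSubgroup.Gamma0 N)] :
    Nonempty (Tuple (CongruenceSubgroup.Gamma0 N)) := by
  have hpos : 0 < Fintype.card (SL(2, ℤ) ⧸ Gamma0 N) := Fintype.card_pos_iff.mpr ⟨x0 _⟩
  let e₀ : (SL(2, ℤ) ⧸ Gamma0 N) ≃ Fin (Fintype.card (SL(2, ℤ) ⧸ Gamma0 N)) :=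
    Fintype.equivFin _
  let e : (SL(2, ℤ) ⧸ Gamma0 N) ≃ Fin (Fintype.card (SL(2, ℤ) ⧸ Gamma0 N)) :=
    e₀.trans (Equiv.swap (e₀ (x0 _)) ⟨0, hpos⟩)
  have he0 : e (x0 (Gamma0 N)) = ⟨0, hpos⟩ := by
    simp [e]
  obtain ⟨z, hz⟩ := exists_injective_cj_jN N
  refine ⟨{
    v := fun k z => jN N z ^ ((e k : ℕ))
    d := fun k => N * (e k : ℕ)
    wh := fun k => isWH_jN_pow N (e k)
    v_one := by
      funext z
      simp [he0]
    d_one := by simp [he0]
    nondeg := ⟨z, ?_⟩ }⟩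
  have hM : cmat (Gamma0 N) (fun k z => jN N z ^ ((e k : ℕ))) z =
      ((Matrix.vandermonde fun i => cj (Gamma0 N) (jN N) (e.symm i) z).transpose).submatrix e e := by
    ext k x
    simp [cmat, cj, Matrix.vandermonde_apply]
  rw [hM, Matrix.det_submatrix_equiv_self, Matrix.det_transpose, Matrix.det_vandermonde_ne_zero_iff]
  exact hz.comp e.symm.injective

end

end Fermat.Agent.S21.EPrim.H20
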