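import Fermat.Agent.S21.EPrim.JFun
import Fermat.Agent.S21.C4.Core

/-!
# Project ES, work package E-prim, part 2

For `g ∈ SL(2,ℤ)`: if `j(N · g z) = j(N z)` for all `z ∈ ℍ`, then `g ∈ Γ₀(N)`.
-/

set_option autoImplicit false

open UpperHalfPlane ModularForm CongruenceSubgroup Filter Topology
open scoped MatrixGroups ModularForm

noncomputable section

namespace Fermat.Agent.S21.EPrim

/-- the affine map `z ↦ r z + s` of the upper half plane (`r > 0`, `s` real) -/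
def affH (r : ℝ) (hr : 0 < r) (s : ℝ) (z : ℍ) : ℍ :=
  ⟨(r : ℂ) * z + s, by
    have : ((r : ℂ) * z + s).im = r * z.im := by simp
    rw [this]
    exact mul_pos hr z.im_pos⟩

@[simp] lemma coe_affH (r : ℝ) (hr : 0 < r) (s : ℝ) (z : ℍ) :
    ((affH r hr s z : ℍ) : ℂ) = (r : ℂ) * z + s := rfl

@[simp] lemma im_affH (r : ℝ) (hr : 0 < r) (s : ℝ) (z : ℍ) :
    (affH r hr s z).im = r * z.im := by
  change ((r : ℂ) * z + s).im = r * z.im
  simp

/-- multiplication by a positive natural number on `ℍ` -/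
def scaleH (N : ℕ) [NeZero N] (z : ℍ) : ℍ :=
  affH (N : ℝ) (by exact_mod_cast Nat.pos_of_ne_zero (NeZero.ne N)) 0 z

@[simp] lemma coe_scaleH (N : ℕ) [NeZero N] (z : ℍ) : ((scaleH N z : ℍ) : ℂ) = (N : ℂ) * z := by
  simp [scaleH]

/-- bounds for `‖jFun‖` near `i∞` -/
lemma exists_jFun_bounds :
    ∃ Y : ℝ, ∀ z : ℍ, Y ≤ z.im →
      (1 / 2 : ℝ) < ‖jFun z‖ * Real.exp (-2 * Real.pi * z.im) ∧
        ‖jFun z‖ * Real.exp (-2 * Real.pi * z.im) < 3 / 2 := by
  have h := tendsto_jFun_mul_q.eventually (Metric.ball_mem_nhds (1 : ℂ) (by norm_num : (0:ℝ) < 1/2))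
  obtain ⟨Y, hY⟩ := (atImInfty_mem _).1 h
  refine ⟨Y, fun z hz => ?_⟩
  have hz' := hY z hz
  simp only [Set.mem_ofPred_eq, Complex.dist_eq] at hz'
  have hn : ‖jFun z * Function.Periodic.qParam 1 (z : ℂ)‖
      = ‖jFun z‖ * Real.exp (-2 * Real.pi * z.im) := by
    rw [norm_mul, Function.Periodic.norm_qParam]
    simp
  rw [← hn]
  have h1 := norm_sub_norm_le (jFun z * Function.Periodic.qParam 1 (z : ℂ)) 1
  have h2 := norm_sub_norm_le 1 (jFun z * Function.Periodic.qParam 1 (z : ℂ))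
  rw [norm_sub_rev] at h2
  rw [norm_one] at h1 h2
  constructor <;> linarith

/-- growth comparison -/
lemma eq_of_forall_jFun_affH_eq_aux {r r' : ℝ} (hr : 0 < r) (hr' : 0 < r') (s s' : ℝ)
    (h : ∀ z : ℍ, jFun (affH r hr s z) = jFun (affH r' hr' s' z)) : r ≤ r' := by
  by_contra hlt
  rw [not_le] at hlt
  obtain ⟨Y, hY⟩ := exists_jFun_bounds
  have hd : 0 < r - r' := sub_pos.2 hlt
  -- choose `y` large
  set y : ℝ := max (max (Y / r) (Y / r')) (max 1 (1 / (Real.pi * (r - r')))) with hy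
  have hy1 : Y / r ≤ y := le_trans (le_max_left _ _) (le_max_left _ _)
  have hy2 : Y / r' ≤ y := le_trans (le_max_right _ _) (le_max_left _ _)
  have hy3 : 1 ≤ y := le_trans (le_max_left _ _) (le_max_right _ _)
  have hy4 : 1 / (Real.pi * (r - r')) ≤ y := le_trans (le_max_right _ _) (le_max_right _ _)
  have hypos : 0 < y := lt_of_lt_of_le one_pos hy3
  let z : ℍ := ⟨Complex.I * y, by simpa using hypos⟩
  have hzim : z.im = y := by
    change (Complex.I * (y : ℂ)).im = y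
    simp
  have hw1 : Y ≤ (affH r hr s z).im := by
    rw [im_affH, hzim]
    have := (div_le_iff₀ hr).1 hy1
    linarith
  have hw2 : Y ≤ (affH r' hr' s' z).im := by
    rw [im_affH, hzim]
    have := (div_le_iff₀ hr').1 hy2
    linarith
  obtain ⟨h1, -⟩ := hY _ hw1
  obtain ⟨-, h2⟩ := hY _ hw2
  rw [im_affH, hzim] at h1 h2
  rw [h z] at h1
  set J := ‖jFun (affH r' hr' s' z)‖ with hJ
  have hJpos : 0 < J := by
    by_contra hJ0
    have : J = 0 := le_antisymm (not_lt.1 hJ0) (norm_nonneg _)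
    rw [this] at h1
    norm_num at h1
  -- `exp (2π (r - r') y) < 3`
  have hpi : 0 < Real.pi := Real.pi_pos
  have e1 : Real.exp (-2 * Real.pi * (r' * y))
      = Real.exp (-2 * Real.pi * (r * y)) * Real.exp (2 * Real.pi * (r - r') * y) := by
    rw [← Real.exp_add]
    congr 1
    ring
  rw [e1] at h2
  have hE : 0 < Real.exp (-2 * Real.pi * (r * y)) := Real.exp_pos _
  have h3 : J * Real.exp (-2 * Real.pi * (r * y)) * Real.exp (2 * Real.pi * (r - r') * y)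
      < 3 / 2 := by
    rw [mul_assoc]; exact h2
  have h4 : (3 : ℝ) ≤ Real.exp (2 * Real.pi * (r - r') * y) := by
    have h5 : (2 : ℝ) ≤ 2 * Real.pi * (r - r') * y := by
      have h6 : 1 ≤ Real.pi * (r - r') * y := by
        have hpd : 0 < Real.pi * (r - r') := mul_pos hpi hd
        have := (div_le_iff₀ hpd).1 hy4
        linarith
      linarith
    calc (3 : ℝ) = 2 + 1 := by norm_num
      _ ≤ Real.exp 2 := Real.add_one_le_exp 2
      _ ≤ Real.exp (2 * Real.pi * (r - r') * y) := Real.exp_le_exp.2 h5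
  have h7 : (1 / 2 : ℝ) * 3 ≤
      J * Real.exp (-2 * Real.pi * (r * y)) * Real.exp (2 * Real.pi * (r - r') * y) :=
    mul_le_mul h1.le h4 (by norm_num) (mul_pos hJpos hE).le
  linarith

theorem eq_of_forall_jFun_affH_eq {r r' : ℝ} (hr : 0 < r) (hr' : 0 < r') (s s' : ℝ)
    (h : ∀ z : ℍ, jFun (affH r hr s z) = jFun (affH r' hr' s' z)) : r = r' :=
  le_antisymm (eq_of_forall_jFun_affH_eq_aux hr hr' s s' h)
    (eq_of_forall_jFun_affH_eq_aux hr' hr s' s (fun z => (h z).symm))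

/-- Hermite decomposition of `diag(N,1) * g` for `g ∈ SL(2,ℤ)`: with `A = gcd(c, N)` and
`D = N / A` there are `γ' ∈ SL(2,ℤ)` and `B ∈ ℤ` such that
`N • (g • z) = γ' • ((A z + B) / D)` for all `z`. -/
theorem exists_hermite (N : ℕ) [NeZero N] (g : SL(2, ℤ)) :
    ∃ (A D : ℕ) (hA : 0 < A) (hD : 0 < D) (B : ℤ) (γ' : SL(2, ℤ)),
      A = Int.gcd (g 1 0) N ∧ N = A * D ∧
      ∀ z : ℍ, scaleH N (g • z)
        = γ' • affH ((A : ℝ) / D) (div_pos (by exact_mod_cast hA) (by exact_mod_cast hD))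
            ((B : ℝ) / D) z := by
  have hN : 0 < N := Nat.pos_of_ne_zero (NeZero.ne N)
  obtain ⟨c₁, D, hc₁, hND, -, -, hcop⟩ := Fermat.Agent.S21.C4.exists_decomp hN (g 1 0)
  have hApos : 0 < Int.gcd (g 1 0) N := Fermat.Agent.S21.C4.gcd_pos' hN _
  have hDpos : 0 < D := by
    rcases Nat.eq_zero_or_pos D with h0 | h0
    · rw [h0, mul_zero] at hND; exact absurd hND hN.ne'
    · exact h0
  set A : ℕ := Int.gcd (g 1 0) N with hAdef
  -- coprimality of `(D a, c₁)`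
  have hcol : IsCoprime (g 0 0) (g 1 0) := Matrix.SpecialLinearGroup.isCoprime_col g 0
  have hc₁dvd : c₁ ∣ g 1 0 := ⟨(A : ℤ), by rw [hc₁]; ring⟩
  have hac₁ : IsCoprime (g 0 0) c₁ := hcol.of_isCoprime_of_dvd_right hc₁dvd
  have hDa : IsCoprime ((D : ℤ) * g 0 0) c₁ := IsCoprime.mul_left hcop.symm hac₁
  obtain ⟨u, v, huv⟩ := hDa
  have hdet : g 0 0 * g 1 1 - g 0 1 * g 1 0 = 1 := by
    have := g.det_coe
    rw [Matrix.det_fin_two] at this
    exact this
  let γ' : SL(2, ℤ) := ⟨!![(D : ℤ) * g 0 0, -v; c₁, u], by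
    rw [Matrix.det_fin_two_of]
    linear_combination huv⟩
  refine ⟨A, D, hApos, hDpos, u * N * g 0 1 + v * g 1 1, γ', rfl, hND, fun z => ?_⟩
  apply UpperHalfPlane.ext
  rw [coe_scaleH, coe_specialLinearGroup_apply, coe_specialLinearGroup_apply, coe_affH]
  have hγ00 : (γ' 0 0 : ℤ) = (D : ℤ) * g 0 0 := rfl
  have hγ01 : (γ' 0 1 : ℤ) = -v := rfl
  have hγ10 : (γ' 1 0 : ℤ) = c₁ := rfl
  have hγ11 : (γ' 1 1 : ℤ) = u := rfl
  rw [hγ00, hγ01, hγ10, hγ11]
  simp only [algebraMap_int_eq, eq_intCast, Int.cast_mul, Int.cast_natCast, Int.cast_neg,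
    Complex.ofReal_intCast, Complex.ofReal_mul, Complex.ofReal_natCast, Complex.ofReal_neg,
    Complex.ofReal_div, Int.cast_add, Complex.ofReal_add]
  -- notation
  have hDne : (D : ℂ) ≠ 0 := by exact_mod_cast hDpos.ne'
  have hden : ((g 1 0 : ℤ) : ℂ) * z + ((g 1 1 : ℤ) : ℂ) ≠ 0 := by
    have := denom_ne_zero (Matrix.SpecialLinearGroup.mapGL ℝ g) z
    simpa [denom] using this
  have hcC : ((g 1 0 : ℤ) : ℂ) = (A : ℂ) * (c₁ : ℂ) := by
    have := congrArg (fun t : ℤ => (t : ℂ)) hc₁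
    simpa using this
  have hNC : (N : ℂ) = (A : ℂ) * (D : ℂ) := by
    have := congrArg (fun t : ℕ => (t : ℂ)) hND
    simpa using this
  have huvC : (u : ℂ) * ((D : ℂ) * ((g 0 0 : ℤ) : ℂ)) + (v : ℂ) * (c₁ : ℂ) = 1 := by
    have := congrArg (fun t : ℤ => (t : ℂ)) huv
    simpa using this
  have hdetC : ((g 0 0 : ℤ) : ℂ) * ((g 1 1 : ℤ) : ℂ) - ((g 0 1 : ℤ) : ℂ) * ((g 1 0 : ℤ) : ℂ) = 1 := by
    have := congrArg (fun t : ℤ => (t : ℂ)) hdet
    simpa using this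
  -- the two key identities
  have key1 : (c₁ : ℂ) * ((A : ℂ) / D * z + ((u : ℂ) * N * ((g 0 1 : ℤ) : ℂ)
      + (v : ℂ) * ((g 1 1 : ℤ) : ℂ)) / D) + u
      = (((g 1 0 : ℤ) : ℂ) * z + ((g 1 1 : ℤ) : ℂ)) / D := by
    rw [hcC] at hdetC ⊢
    rw [hNC]
    field_simp
    linear_combination ((g 1 1 : ℤ) : ℂ) * huvC - (u : ℂ) * (D : ℂ) * hdetC
  have key2 : (D : ℂ) * ((g 0 0 : ℤ) : ℂ) * ((A : ℂ) / D * z + ((u : ℂ) * N * ((g 0 1 : ℤ) : ℂ)
      + (v : ℂ) * ((g 1 1 : ℤ) : ℂ)) / D) + -(v : ℂ)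
      = (A : ℂ) * (((g 0 0 : ℤ) : ℂ) * z + ((g 0 1 : ℤ) : ℂ)) := by
    rw [hcC] at hdetC
    rw [hNC]
    field_simp
    linear_combination (A : ℂ) * ((g 0 1 : ℤ) : ℂ) * huvC + (v : ℂ) * hdetC
  rw [key1, key2, hNC]
  field_simp

/-- **E-prim, core**: if `j(N · g z) = j(N z)` for all `z`, then `g ∈ Γ₀(N)`. -/
theorem mem_Gamma0_of_forall_jFun_scaleH_smul_eq (N : ℕ) [NeZero N] (g : SL(2, ℤ))
    (h : ∀ z : ℍ, jFun (scaleH N (g • z)) = jFun (scaleH N z)) : g ∈ Gamma0 N := by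
  obtain ⟨A, D, hA, hD, B, γ', hAdef, hND, hz⟩ := exists_hermite N g
  have hN : 0 < N := Nat.pos_of_ne_zero (NeZero.ne N)
  have hNr : (0 : ℝ) < N := by exact_mod_cast hN
  have h' : ∀ z : ℍ, jFun (affH ((A : ℝ) / D)
      (div_pos (by exact_mod_cast hA) (by exact_mod_cast hD)) ((B : ℝ) / D) z)
        = jFun (affH (N : ℝ) hNr 0 z) := by
    intro z
    have := h z
    rw [hz z, jFun_smul] at this
    exact this
  have hr := eq_of_forall_jFun_affH_eq _ _ _ _ h'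
  -- `A / D = N = A * D`
  have hDr : (0 : ℝ) < D := by exact_mod_cast hD
  have hAr : (0 : ℝ) < A := by exact_mod_cast hA
  have h1 : (A : ℝ) = (N : ℝ) * D := by
    field_simp at hr
    linarith
  have h2 : (N : ℝ) = (A : ℝ) * D := by exact_mod_cast hND
  have h3 : (D : ℝ) * D = 1 := by
    have : (A : ℝ) * (D * D) = A * 1 := by
      rw [mul_one]
      calc (A : ℝ) * (D * D) = (A * D) * D := by ring
        _ = N * D := by rw [h2]
        _ = A := h1.symm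
    exact mul_left_cancel₀ hAr.ne' this
  have hD1 : D = 1 := by
    have : D * D = 1 := by exact_mod_cast h3
    exact Nat.eq_one_of_mul_eq_one_left this
  rw [hD1, mul_one] at hND
  rw [Gamma0_mem, ZMod.intCast_zmod_eq_zero_iff_dvd, hND, hAdef]
  exact Int.gcd_dvd_left _ _

end Fermat.Agent.S21.EPrim
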