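import Fermat.Agent.S21.EPrim.Main

/-!
# Project ES, work package E-prim, part 3

`fN N z = j(N z)` is holomorphic and `Γ₀(N)`-invariant; its `SL(2,ℤ)`-translates
`z ↦ fN N (g • z)` are pairwise distinct for distinct cosets `Γ₀(N) g`, and there is a point
of `ℍ` at which they take pairwise distinct values (non-vanishing of the Vandermonde
determinant).
-/

set_option autoImplicit false

open UpperHalfPlane ModularForm CongruenceSubgroup Filter Topology
open scoped MatrixGroups ModularForm Manifold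

noncomputable section

namespace Fermat.Agent.S21.EPrim

/-- `z ↦ j(N z)` -/
def fN (N : ℕ) [NeZero N] (z : ℍ) : ℂ := jFun (scaleH N z)

/-- the matrix `diag(N, 1)` -/
def scaleMat (N : ℕ) [NeZero N] : GL (Fin 2) ℝ :=
  Matrix.GeneralLinearGroup.mkOfDetNeZero !![(N : ℝ), 0; 0, 1] (by
    rw [Matrix.det_fin_two_of]
    simpa using NeZero.ne N)

lemma scaleMat_det_pos (N : ℕ) [NeZero N] : 0 < (scaleMat N).det.val := by
  have hN : (0 : ℝ) < N := by exact_mod_cast Nat.pos_of_ne_zero (NeZero.ne N)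
  simp [scaleMat, Matrix.GeneralLinearGroup.mkOfDetNeZero, Matrix.det_fin_two_of, hN]

lemma scaleH_eq_smul (N : ℕ) [NeZero N] (z : ℍ) : scaleH N z = scaleMat N • z := by
  apply UpperHalfPlane.ext
  rw [coe_scaleH, coe_smul_of_det_pos (scaleMat_det_pos N)]
  simp [num, denom, scaleMat, Matrix.GeneralLinearGroup.mkOfDetNeZero]

lemma mdifferentiable_scaleH (N : ℕ) [NeZero N] : MDiff (scaleH N) := by
  have h := mdifferentiable_smul (scaleMat_det_pos N)
  have e : scaleH N = fun z : ℍ => scaleMat N • z := funext (scaleH_eq_smul N)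
  rw [e]
  exact h

lemma mdifferentiable_jFun : MDiff jFun := by
  rw [mdifferentiable_iff]
  have h4 : DifferentiableOn ℂ ((E₄ : ℍ → ℂ) ∘ ofComplex) {z | 0 < z.im} :=
    mdifferentiable_iff.1 (ModularFormClass.holo E₄)
  have hΔ : DifferentiableOn ℂ ((discriminant : ℍ → ℂ) ∘ ofComplex) {z | 0 < z.im} :=
    mdifferentiable_iff.1 (ModularFormClass.holo CuspForm.discriminant)
  have : (jFun ∘ ofComplex) = fun w => ((E₄ : ℍ → ℂ) ∘ ofComplex) w ^ 3
      / ((discriminant : ℍ → ℂ) ∘ ofComplex) w := by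
    funext w
    simp [jFun]
  rw [this]
  exact (h4.pow 3).div hΔ (fun w _ => discriminant_ne_zero _)

lemma mdifferentiable_fN (N : ℕ) [NeZero N] : MDiff (fN N) :=
  mdifferentiable_jFun.comp (mdifferentiable_scaleH N)

lemma mdifferentiable_fN_smul (N : ℕ) [NeZero N] (g : SL(2, ℤ)) :
    MDiff (fun z : ℍ => fN N (g • z)) := by
  have hg : MDiff (fun z : ℍ => g • z) := by
    have h1 : 0 < ((Matrix.SpecialLinearGroup.mapGL ℝ g : GL (Fin 2) ℝ)).det.val := by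
      simp
    exact mdifferentiable_smul h1
  exact (mdifferentiable_fN N).comp hg

/-- `Γ₀(N)`-invariance of `z ↦ j(N z)` -/
theorem fN_smul_of_mem_Gamma0 (N : ℕ) [NeZero N] {γ : SL(2, ℤ)} (hγ : γ ∈ Gamma0 N) (z : ℍ) :
    fN N (γ • z) = fN N z := by
  rw [Gamma0_mem, ZMod.intCast_zmod_eq_zero_iff_dvd] at hγ
  obtain ⟨c', hc'⟩ := hγ
  have hdet : γ 0 0 * γ 1 1 - γ 0 1 * γ 1 0 = 1 := by
    have := γ.det_coe
    rw [Matrix.det_fin_two] at this
    exact this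
  let γ'' : SL(2, ℤ) := ⟨!![γ 0 0, (N : ℤ) * γ 0 1; c', γ 1 1], by
    rw [Matrix.det_fin_two_of]
    rw [hc'] at hdet
    linear_combination hdet⟩
  have key : scaleH N (γ • z) = γ'' • scaleH N z := by
    apply UpperHalfPlane.ext
    rw [coe_scaleH, coe_specialLinearGroup_apply, coe_specialLinearGroup_apply, coe_scaleH]
    have h00 : (γ'' 0 0 : ℤ) = γ 0 0 := rfl
    have h01 : (γ'' 0 1 : ℤ) = (N : ℤ) * γ 0 1 := rfl
    have h10 : (γ'' 1 0 : ℤ) = c' := rfl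
    have h11 : (γ'' 1 1 : ℤ) = γ 1 1 := rfl
    rw [h00, h01, h10, h11]
    simp only [algebraMap_int_eq, eq_intCast, Int.cast_mul, Int.cast_natCast,
      Complex.ofReal_intCast, Complex.ofReal_mul, Complex.ofReal_natCast]
    have hcC : ((γ 1 0 : ℤ) : ℂ) = (N : ℂ) * (c' : ℂ) := by
      have := congrArg (fun t : ℤ => (t : ℂ)) hc'
      simpa using this
    rw [hcC]
    have e : (c' : ℂ) * ((N : ℂ) * z) + ((γ 1 1 : ℤ) : ℂ)
        = (N : ℂ) * (c' : ℂ) * z + ((γ 1 1 : ℤ) : ℂ) := by ring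
    rw [e, mul_div_assoc']
    congr 1
    ring
  unfold fN
  rw [key, jFun_smul]

/-- the translates of `z ↦ j(N z)` by `g⁻¹`, `g'⁻¹` coincide iff `g Γ₀(N) = g' Γ₀(N)` -/
theorem fN_inv_smul_eq_iff (N : ℕ) [NeZero N] (g g' : SL(2, ℤ)) :
    (∀ z : ℍ, fN N (g⁻¹ • z) = fN N (g'⁻¹ • z)) ↔
      (g : SL(2, ℤ) ⧸ Gamma0 N) = (g' : SL(2, ℤ) ⧸ Gamma0 N) := by
  rw [QuotientGroup.eq]
  constructor
  · intro h
    apply mem_Gamma0_of_forall_jFun_scaleH_smul_eq
    intro w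
    have := h (g' • w)
    rw [inv_smul_smul, ← mul_smul] at this
    exact this
  · intro h z
    have := fN_smul_of_mem_Gamma0 N h (g'⁻¹ • z)
    rw [← mul_smul, mul_assoc, mul_inv_cancel, mul_one] at this
    exact this

/-- the translate of `z ↦ j(N z)` attached to a left coset `x = g Γ₀(N)`: `z ↦ j(N g⁻¹ z)` -/
def fNc (N : ℕ) [NeZero N] (x : SL(2, ℤ) ⧸ Gamma0 N) (z : ℍ) : ℂ :=
  fN N ((Quotient.out x : SL(2, ℤ))⁻¹ • z)

lemma fNc_mk (N : ℕ) [NeZero N] (g : SL(2, ℤ)) (z : ℍ) :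
    fNc N (g : SL(2, ℤ) ⧸ Gamma0 N) z = fN N (g⁻¹ • z) := by
  unfold fNc
  refine ((fN_inv_smul_eq_iff N _ g).2 ?_) z
  exact Quotient.out_eq' _

lemma mdifferentiable_fNc (N : ℕ) [NeZero N] (x : SL(2, ℤ) ⧸ Gamma0 N) : MDiff (fNc N x) :=
  mdifferentiable_fN_smul N _

lemma fNc_ne (N : ℕ) [NeZero N] {x y : SL(2, ℤ) ⧸ Gamma0 N} (hxy : x ≠ y) :
    fNc N x ≠ fNc N y := by
  intro h
  apply hxy
  obtain ⟨g, rfl⟩ := QuotientGroup.mk_surjective x
  obtain ⟨g', rfl⟩ := QuotientGroup.mk_surjective y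
  refine (fN_inv_smul_eq_iff N g g').1 (fun z => ?_)
  rw [← fNc_mk, ← fNc_mk, h]

lemma fNc_smul (N : ℕ) [NeZero N] (h : SL(2, ℤ)) (x : SL(2, ℤ) ⧸ Gamma0 N) (z : ℍ) :
    fNc N (h • x) z = fNc N x (h⁻¹ • z) := by
  obtain ⟨g, rfl⟩ := QuotientGroup.mk_surjective x
  have : h • (g : SL(2, ℤ) ⧸ Gamma0 N) = ((h * g : SL(2, ℤ)) : SL(2, ℤ) ⧸ Gamma0 N) := rfl
  rw [this, fNc_mk, fNc_mk, mul_inv_rev, mul_smul]

/-- **E-prim**: there is a point of `ℍ` at which the `μ` conjugates of `j(N z)` take pairwise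
distinct values (equivalently: the Vandermonde determinant of `1, f, …, f^(μ-1)` does not
vanish identically). -/
theorem exists_forall_fNc_ne (N : ℕ) [NeZero N] :
    ∃ z : ℍ, ∀ x y : SL(2, ℤ) ⧸ Gamma0 N, x ≠ y → fNc N x z ≠ fNc N y z := by
  classical
  let _ : Fintype (SL(2, ℤ) ⧸ Gamma0 N) := Fintype.ofFinite _
  let s : Finset ((SL(2, ℤ) ⧸ Gamma0 N) × (SL(2, ℤ) ⧸ Gamma0 N)) :=
    Finset.univ.filter (fun p => p.1 ≠ p.2)
  let F : ((SL(2, ℤ) ⧸ Gamma0 N) × (SL(2, ℤ) ⧸ Gamma0 N)) → ℍ → ℂ :=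
    fun p => fNc N p.1 - fNc N p.2
  have hF : ∀ p ∈ s, MDiff (F p) := fun p _ =>
    (mdifferentiable_fNc N p.1).sub (mdifferentiable_fNc N p.2)
  have hne : ∏ p ∈ s, F p ≠ 0 := by
    intro h0
    obtain ⟨p, hp, hp0⟩ := (UpperHalfPlane.prod_eq_zero_iff hF).1 h0
    have hp' : p.1 ≠ p.2 := (Finset.mem_filter.1 hp).2
    exact fNc_ne N hp' (sub_eq_zero.1 hp0)
  obtain ⟨z, hz⟩ : ∃ z, (∏ p ∈ s, F p) z ≠ 0 := by
    by_contra hcon
    exact hne (funext fun z => not_not.1 (not_exists.1 hcon z))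
  refine ⟨z, fun x y hxy hval => hz ?_⟩
  rw [Finset.prod_apply]
  refine Finset.prod_eq_zero (i := (x, y)) (Finset.mem_filter.2 ⟨Finset.mem_univ _, hxy⟩) ?_
  simp [F, hval]

/-! ### Growth at the cusps: `fN N` has "degree" at most `N` -/

lemma exists_discriminant_bound :
    ∃ Y : ℝ, ∀ z : ℍ, Y ≤ z.im → ‖discriminant z‖ ≤ 2 * Real.exp (-2 * Real.pi * z.im) := by
  have h := tendsto_atImInfty_tprod_one_sub_eta_q_pow.eventually
    (Metric.ball_mem_nhds (1 : ℂ) (by norm_num : (0:ℝ) < 1))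
  obtain ⟨Y, hY⟩ := (atImInfty_mem _).1 h
  refine ⟨Y, fun z hz => ?_⟩
  have hz' := hY z hz
  simp only [Set.mem_ofPred_eq, Complex.dist_eq] at hz'
  rw [discriminant_eq_q_prod, norm_mul, Function.Periodic.norm_qParam]
  have h1 := norm_sub_norm_le (∏' (n : ℕ), (1 - eta_q n (z : ℂ)) ^ 24) 1
  rw [norm_one] at h1
  have h2 : ‖∏' (n : ℕ), (1 - eta_q n (z : ℂ)) ^ 24‖ ≤ 2 := by linarith
  have h3 : Real.exp (-2 * Real.pi * (z : ℂ).im / 1) = Real.exp (-2 * Real.pi * z.im) := by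
    simp
  rw [h3, mul_comm]
  exact mul_le_mul_of_nonneg_right h2 (Real.exp_pos _).le

/-- for every `g ∈ SL(2,ℤ)`, `Δ^N · (fN N ∘ g)` is bounded at `i∞` -/
theorem isBoundedAtImInfty_discriminant_pow_mul_fN_smul (N : ℕ) [NeZero N] (g : SL(2, ℤ)) :
    IsBoundedAtImInfty (fun z : ℍ => discriminant z ^ N * fN N (g • z)) := by
  obtain ⟨A, D, hA, hD, B, γ', hAdef, hND, hz⟩ := exists_hermite N g
  obtain ⟨Y₁, hY₁⟩ := exists_jFun_bounds
  obtain ⟨Y₂, hY₂⟩ := exists_discriminant_bound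
  have hAr : (0 : ℝ) < A := by exact_mod_cast hA
  have hDr : (0 : ℝ) < D := by exact_mod_cast hD
  have hr : (0 : ℝ) < (A : ℝ) / D := div_pos hAr hDr
  have hrN : (A : ℝ) / D ≤ N := by
    have h1 : (1 : ℝ) ≤ D := by exact_mod_cast hD
    have h2 : (N : ℝ) = A * D := by exact_mod_cast hND
    rw [div_le_iff₀ hDr, h2]
    nlinarith
  rw [isBoundedAtImInfty_iff]
  refine ⟨2 ^ N * (3 / 2), max (max Y₂ (Y₁ / ((A : ℝ) / D))) 0, fun z hzim => ?_⟩
  have hz1 : Y₂ ≤ z.im := le_trans (le_trans (le_max_left _ _) (le_max_left _ _)) hzim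
  have hz2 : Y₁ / ((A : ℝ) / D) ≤ z.im :=
    le_trans (le_trans (le_max_right _ _) (le_max_left _ _)) hzim
  have hz0 : 0 ≤ z.im := le_trans (le_max_right _ _) hzim
  have e : fN N (g • z) = jFun (affH ((A : ℝ) / D) hr ((B : ℝ) / D) z) := by
    unfold fN
    rw [hz z, jFun_smul]
  rw [e, norm_mul, norm_pow]
  have hw : Y₁ ≤ (affH ((A : ℝ) / D) hr ((B : ℝ) / D) z).im := by
    rw [im_affH]
    have := (div_le_iff₀ hr).1 hz2
    linarith
  obtain ⟨-, hJ⟩ := hY₁ _ hw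
  rw [im_affH] at hJ
  have hΔ := hY₂ z hz1
  set J := ‖jFun (affH ((A : ℝ) / D) hr ((B : ℝ) / D) z)‖ with hJdef
  have hJ0 : 0 ≤ J := norm_nonneg _
  have hΔN : ‖discriminant z‖ ^ N ≤ (2 * Real.exp (-2 * Real.pi * z.im)) ^ N :=
    pow_le_pow_left₀ (norm_nonneg _) hΔ N
  have hexpN : (2 * Real.exp (-2 * Real.pi * z.im)) ^ N
      = 2 ^ N * Real.exp (-2 * Real.pi * (N * z.im)) := by
    rw [mul_pow, ← Real.exp_nat_mul]
    congr 2
    ring
  rw [hexpN] at hΔN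
  -- `J ≤ (3/2) exp (2π (A/D) y) ≤ (3/2) exp (2π N y)`
  have hJ' : J ≤ 3 / 2 * Real.exp (2 * Real.pi * (N * z.im)) := by
    have h1 : J = J * Real.exp (-2 * Real.pi * ((A : ℝ) / D * z.im))
        * Real.exp (2 * Real.pi * ((A : ℝ) / D * z.im)) := by
      rw [mul_assoc, ← Real.exp_add]
      have : -2 * Real.pi * ((A : ℝ) / D * z.im) + 2 * Real.pi * ((A : ℝ) / D * z.im) = 0 := by
        ring
      rw [this, Real.exp_zero, mul_one]
    rw [h1]
    have h2 : Real.exp (2 * Real.pi * ((A : ℝ) / D * z.im))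
        ≤ Real.exp (2 * Real.pi * (N * z.im)) := by
      apply Real.exp_le_exp.2
      have := mul_le_mul_of_nonneg_right hrN hz0
      have hpi := Real.pi_pos
      nlinarith
    exact mul_le_mul hJ.le h2 (Real.exp_pos _).le (by norm_num)
  calc ‖discriminant z‖ ^ N * J
      ≤ (2 ^ N * Real.exp (-2 * Real.pi * (N * z.im)))
          * (3 / 2 * Real.exp (2 * Real.pi * (N * z.im))) :=
        mul_le_mul hΔN hJ' hJ0 (by positivity)
    _ = 2 ^ N * (3 / 2) * (Real.exp (-2 * Real.pi * (N * z.im))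
          * Real.exp (2 * Real.pi * (N * z.im))) := by ring
    _ = 2 ^ N * (3 / 2) := by
        rw [← Real.exp_add]
        have : -2 * Real.pi * (N * z.im) + 2 * Real.pi * (N * z.im) = 0 := by ring
        rw [this, Real.exp_zero, mul_one]

end Fermat.Agent.S21.EPrim
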